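import Fermat.Agent.MehtaIntegral.Tools
import Mathlib.Analysis.SpecialFunctions.Gamma.Basic

/-!
# The Laguerre form: `β → ∞`
-/

set_option autoImplicit false

noncomputable section

namespace FA.MehtaIntegral

open Finset MeasureTheory Filter Topology
open FA.SelbergIntegral (prodMap betaMap betaMap_vandPow selbergForm vandPow rise rise_pos moment
  gamma_add_natCast eval_vandPow rise_one)

variable {n k : ℕ} {α : ℝ}

theorem prodMap_rise_vandPow (hα : 0 < α) :
    prodMap (fun _ => rise α) (vandPow n k) =
      ∏ j ∈ range n, rise α (j * k) * ((j + 1) * k).factorial / k.factorial := by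
  have h1 : Tendsto (fun b : ℝ => prodMap (fun _ m => b ^ m * moment α b m) (vandPow n k)) atTop
      (𝓝 (prodMap (fun _ => rise α) (vandPow n k))) :=
    tendsto_prodMap (fun m => by
      have := (tendsto_pow_div_rise α m).const_mul (rise α m)
      rw [mul_one] at this
      exact this.congr fun b => by rw [moment]; ring) _
  have e : ∀ᶠ b : ℝ in atTop, prodMap (fun _ m => b ^ m * moment α b m) (vandPow n k) =
      ∏ j ∈ range n, rise α (j * k) * ((j + 1) * k).factorial / k.factorial *
        ((b ^ ((n + j - 1) * k) / rise (α + b) ((n + j - 1) * k)) /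
          (b ^ (j * k) / rise (0 + b) (j * k))) := by
    filter_upwards [eventually_gt_atTop 0] with b hb
    rw [prodMap_scale, ← betaMap, betaMap_vandPow n k hb hα, selbergForm,
      show n * (n - 1) * k = ∑ _j ∈ range n, (n - 1) * k by
        rw [sum_const, card_range, smul_eq_mul, mul_assoc],
      ← prod_pow_eq_pow_sum, ← prod_mul_distrib]
    refine prod_congr rfl fun j hj => ?_
    have := mem_range.1 hj
    rw [show n + j - 1 = (n - 1) + j by omega, add_mul (n - 1) j k, pow_add, zero_add]
    have r1 := rise_pos hb (j * k)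
    have r2 := rise_pos (add_pos hα hb) ((n - 1) * k + j * k)
    have : b ^ (j * k) ≠ 0 := pow_ne_zero _ hb.ne'
    field_simp
  have h2 := tendsto_finsetProd (range n) fun j _ =>
    (((tendsto_pow_div_rise α ((n + j - 1) * k)).div (tendsto_pow_div_rise 0 (j * k))
      one_ne_zero).const_mul (rise α (j * k) * ((j + 1) * k).factorial / (k.factorial : ℝ)))
  simp only [div_one, mul_one] at h2
  exact tendsto_nhds_unique (h1.congr' e) h2

theorem gamma_moment (hα : 0 < α) (m : ℕ) :
    IntegrableOn (fun x : ℝ => x ^ m * (x ^ (α - 1) * Real.exp (-x))) (Set.Ioi 0) ∧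
      ∫ x in Set.Ioi (0 : ℝ), x ^ m * (x ^ (α - 1) * Real.exp (-x)) =
        rise α m * Real.Gamma α := by
  have ha : 0 < α + m := by positivity
  have he : Set.EqOn (fun x : ℝ => Real.exp (-x) * x ^ (α + m - 1))
      (fun x => x ^ m * (x ^ (α - 1) * Real.exp (-x))) (Set.Ioi 0) := fun x hx => by
    simp only
    rw [← mul_assoc, ← Real.rpow_natCast x m, ← Real.rpow_add hx]
    ring_nf
  exact ⟨(Real.GammaIntegral_convergent ha).congr_fun he measurableSet_Ioi, by
    rw [← setIntegral_congr_fun measurableSet_Ioi he, ← Real.Gamma_eq_integral ha,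
      gamma_add_natCast hα]⟩

theorem laguerre_value (hα : 0 < α) :
    ∫ x in Set.univ.pi fun _ : Fin n => Set.Ioi (0 : ℝ),
        (∏ i, x i ^ (α - 1) * Real.exp (-x i)) *
          |∏ i : Fin n, ∏ j ∈ Ioi i, (x i - x j)| ^ (2 * k) =
      ∏ j ∈ range n, Real.Gamma (α + j * k) * Real.Gamma (1 + (j + 1) * k) /
        Real.Gamma (1 + k) := by
  rw [volume_pi, Measure.restrict_pi_pi]
  have h := (integral_eval (volume.restrict (Set.Ioi 0))
    (fun x : ℝ => x ^ (α - 1) * Real.exp (-x)) (rise α) (Real.Gamma α) (gamma_moment hα)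
    (vandPow n k)).2
  simp only [eval_vandPow] at h
  rw [prodMap_rise_vandPow hα, pow_eq_prod_const, ← prod_mul_distrib] at h
  refine Eq.trans ?_ (h.trans (prod_congr rfl fun j _ => ?_))
  · congr 1
    funext x
    ring
  · have h1 := gamma_add_natCast hα (j * k)
    have h4 := gamma_add_natCast one_pos ((j + 1) * k)
    have h5 := gamma_add_natCast one_pos k
    simp only [Nat.cast_mul, Nat.cast_add, Nat.cast_one, rise_one, Real.Gamma_one, mul_one]
      at h1 h4 h5
    rw [h1, h4, h5]
    ring

end FA.MehtaIntegral
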