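import Fermat.Agent.MehtaIntegral.Tools
import Mathlib.Analysis.SpecialFunctions.Gaussian.GaussianIntegral
import Mathlib.MeasureTheory.Integral.IntegralEqImproper
import Mathlib.Probability.Distributions.Gaussian.Real

/-!
# The Gaussian form: `α = β → ∞` after centring at `1 / 2`
-/

set_option autoImplicit false

noncomputable section

namespace FA.MehtaIntegral

open Finset MeasureTheory Filter Topology
open MvPolynomial (C X pderiv aeval)
open FA.SelbergIntegral (prodMap prodMap_C_mul prodMap_monomial betaMap betaMap_parts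
  betaMap_vandPow selbergForm vandPow rise rise_zero rise_succ rise_pos moment eval_vandPow)

variable {n k : ℕ}

/-- The moments of `x - 1 / 2` for the symmetric beta law. -/
def symWeight (a : ℝ) : ℕ → ℝ := shiftWeight (-(1 / 2)) (moment a a)

theorem symWeight_zero (a : ℝ) : symWeight a 0 = 1 := by
  simp [symWeight, shiftWeight, moment, rise_zero]

theorem symWeight_one {a : ℝ} (ha : 0 < a) : symWeight a 1 = 0 := by
  simp [symWeight, shiftWeight, moment, rise_zero, rise_succ, sum_range_succ]
  field_simp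
  ring

theorem symWeight_eq (a : ℝ) (j : ℕ) :
    betaMap 1 a a ((X 0 + C (-(1 / 2))) ^ j) = symWeight a j := by
  have h := prodMap_shift (n := 1) (-(1 / 2)) (moment a a) (X 0 ^ j)
  rw [map_pow, MvPolynomial.aeval_X] at h
  rw [betaMap, h, MvPolynomial.X_pow_eq_monomial, prodMap_monomial]
  simp [symWeight]

theorem symWeight_succ {a : ℝ} (ha : 0 < a) (j : ℕ) :
    (a + a + (j + 1)) * symWeight a (j + 2) = ((j : ℝ) + 1) / 4 * symWeight a j := by
  set U : MvPolynomial (Fin 1) ℝ := X 0 + C (-(1 / 2)) with hU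
  have hp := betaMap_parts ha ha 0 (U ^ (j + 1))
  have hd : pderiv 0 (U ^ (j + 1)) = C ((j : ℝ) + 1) * U ^ j := by
    rw [MvPolynomial.pderiv_pow, hU, map_add, MvPolynomial.pderiv_X_self, MvPolynomial.pderiv_C,
      add_zero, mul_one, Nat.add_sub_cancel, map_add, map_natCast, map_one]
    push_cast
    rfl
  have key : C a * U ^ (j + 1) + X 0 * pderiv 0 (U ^ (j + 1)) -
      (C (a + a) * (X 0 * U ^ (j + 1)) + X 0 * (X 0 * pderiv 0 (U ^ (j + 1)))) =
      C (((j : ℝ) + 1) / 4) * U ^ j - C (a + a + (j + 1)) * U ^ (j + 2) := by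
    have h2 : 2 * C (1 / 2 : ℝ) = (1 : MvPolynomial (Fin 1) ℝ) := by
      rw [← map_ofNat (C : ℝ →+* MvPolynomial (Fin 1) ℝ), ← map_mul]
      norm_num
    rw [hd, show ((j : ℝ) + 1) / 4 = ((j : ℝ) + 1) * (1 / 2 * (1 / 2)) by ring, hU]
    simp only [map_add, map_mul, map_neg]
    linear_combination (-(C a * (X 0 + -C (1 / 2 : ℝ)) ^ (j + 1) +
      (C (j : ℝ) + C 1) * X 0 * (X 0 + -C (1 / 2 : ℝ)) ^ j)) * h2
  have hz := congrArg (betaMap 1 a a) key
  rw [map_sub, map_sub, hp, sub_self, betaMap, prodMap_C_mul, prodMap_C_mul, ← betaMap, hU,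
    symWeight_eq, symWeight_eq] at hz
  linarith

/-- The moments of the standard Gaussian law. -/
def gaussMoment : ℕ → ℝ
  | 0 => 1
  | 1 => 0
  | j + 2 => ((j : ℝ) + 1) * gaussMoment j

theorem tendsto_symWeight (m : ℕ) :
    Tendsto (fun s : ℝ => s ^ m * symWeight (s ^ 2 / 8) m) atTop (𝓝 (gaussMoment m)) := by
  induction m using Nat.twoStepInduction with
  | zero => simp [symWeight_zero, gaussMoment]
  | one =>
    refine tendsto_const_nhds.congr' ?_
    filter_upwards [eventually_gt_atTop 0] with s hs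
    rw [symWeight_one (by positivity), mul_zero]
    rfl
  | more j ih =>
    have h := (ih.const_mul ((j : ℝ) + 1)).mul ((tendsto_pow_div_rise (4 * ((j : ℝ) + 1)) 1).comp
      (tendsto_pow_atTop (two_ne_zero (α := ℕ))))
    rw [mul_one] at h
    refine Tendsto.congr' ?_ h
    filter_upwards [eventually_gt_atTop 0] with s hs
    have hr := symWeight_succ (a := s ^ 2 / 8) (by positivity) j
    have hne : 4 * ((j : ℝ) + 1) + s ^ 2 ≠ 0 := by positivity
    simp only [Function.comp_apply, pow_one, rise_succ, rise_zero, one_mul, Nat.cast_zero,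
      add_zero]
    rw [mul_div_assoc', div_eq_iff hne]
    linear_combination -4 * s ^ (j + 2) * hr

theorem prodMap_gauss_vandPow :
    prodMap (fun _ => gaussMoment) (vandPow n k) =
      ∏ j ∈ range n, (((j + 1) * k).factorial : ℝ) / k.factorial := by
  have h1 : Tendsto (fun s : ℝ => prodMap (fun _ m => s ^ m * symWeight (s ^ 2 / 8) m)
      (vandPow n k)) atTop (𝓝 (prodMap (fun _ => gaussMoment) (vandPow n k))) :=
    tendsto_prodMap tendsto_symWeight _
  have hS : 2 * (∑ j ∈ range n, j) = n * (n - 1) := by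
    rw [mul_comm, sum_range_id_mul_two]
  have hQ : ∑ j ∈ range n, (n + j - 1) * k = 3 * ((∑ j ∈ range n, j) * k) := by
    rw [← sum_mul, ← mul_assoc]
    congr 1
    rw [sum_congr rfl fun j hj => show n + j - 1 = (n - 1) + j by
      have := mem_range.1 hj; omega, sum_add_distrib, sum_const, card_range, smul_eq_mul]
    omega
  have e : ∀ᶠ s : ℝ in atTop, prodMap (fun _ m => s ^ m * symWeight (s ^ 2 / 8) m) (vandPow n k) =
      ∏ j ∈ range n, (((j + 1) * k).factorial : ℝ) / k.factorial *
        (((s ^ 2 / 8 + s ^ 2 / 8) ^ ((n + j - 1) * k) /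
            rise (0 + (s ^ 2 / 8 + s ^ 2 / 8)) ((n + j - 1) * k)) /
          ((s ^ 2 / 8) ^ (j * k) / rise (0 + s ^ 2 / 8) (j * k)) ^ 2) := by
    filter_upwards [eventually_gt_atTop 0] with s hs
    have ha : (0 : ℝ) < s ^ 2 / 8 := by positivity
    rw [prodMap_scale, symWeight, prodMap_shift_vandPow, ← betaMap, betaMap_vandPow n k ha ha]
    generalize hA : s ^ 2 / 8 = A at ha ⊢
    have hpow : s ^ (n * (n - 1) * k) = (8 * A) ^ ((∑ j ∈ range n, j) * k) := by
      rw [← hS, mul_assoc, pow_mul, ← hA]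
      ring_nf
    have hterm : ∀ j, rise A (j * k) * rise A (j * k) * ((j + 1) * k).factorial /
        (rise (A + A) ((n + j - 1) * k) * k.factorial) =
        (((j + 1) * k).factorial : ℝ) / k.factorial *
          (((A + A) ^ ((n + j - 1) * k) / rise (0 + (A + A)) ((n + j - 1) * k)) /
            (A ^ (j * k) / rise (0 + A) (j * k)) ^ 2) *
          ((A ^ (j * k)) ^ 2 / (A + A) ^ ((n + j - 1) * k)) := fun j => by
      rw [zero_add, zero_add]
      have r1 := rise_pos ha (j * k)
      have r2 := rise_pos (add_pos ha ha) ((n + j - 1) * k)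
      field_simp
    rw [selbergForm, prod_congr rfl fun j _ => hterm j, prod_mul_distrib, prod_div_distrib,
      prod_pow, prod_pow_eq_pow_sum, prod_pow_eq_pow_sum, hpow, hQ, ← sum_mul, mul_left_comm]
    refine mul_eq_left₀ ?_ |>.2 ?_
    · refine (prod_pos fun j _ => ?_).ne'
      have r1 := rise_pos ha (j * k)
      have r2 := rise_pos (add_pos ha ha) ((n + j - 1) * k)
      simp only [zero_add]
      positivity
    · generalize (∑ j ∈ range n, j) * k = T
      rw [← pow_mul, mul_comm T 2, pow_mul, pow_mul, mul_div_assoc', ← mul_pow,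
        div_eq_one_iff_eq (by positivity)]
      ring
  have ha : Tendsto (fun s : ℝ => s ^ 2 / 8) atTop atTop :=
    (tendsto_pow_atTop two_ne_zero).atTop_div_const (by norm_num)
  have h2 := tendsto_finsetProd (range n) fun j _ =>
    ((((tendsto_pow_div_rise 0 ((n + j - 1) * k)).comp (ha.atTop_add_atTop ha)).div
      (((tendsto_pow_div_rise 0 (j * k)).comp ha).pow 2) (by norm_num)).const_mul
        ((((j + 1) * k).factorial : ℝ) / k.factorial))
  simp only [one_pow, div_one, mul_one] at h2
  exact tendsto_nhds_unique (h1.congr' e) h2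

theorem gauss_moment (m : ℕ) :
    Integrable (fun x : ℝ => x ^ m * Real.exp (-(1 / 2) * x ^ 2)) ∧
      ∫ x : ℝ, x ^ m * Real.exp (-(1 / 2) * x ^ 2) = gaussMoment m * √(2 * Real.pi) := by
  have hI : ∀ j : ℕ, Integrable (fun x : ℝ => x ^ j * Real.exp (-(1 / 2) * x ^ 2)) := fun j => by
    have := integrable_rpow_mul_exp_neg_mul_sq (b := 1 / 2) (by norm_num) (s := j)
      (neg_one_lt_zero.trans_le (Nat.cast_nonneg j))
    simpa [Real.rpow_natCast] using this
  refine ⟨hI m, ?_⟩
  induction m using Nat.twoStepInduction with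
  | zero =>
    simp only [pow_zero, one_mul, gaussMoment, integral_gaussian]
    congr 1
    ring
  | one =>
    have h := integral_neg_eq_self (fun x : ℝ => x ^ 1 * Real.exp (-(1 / 2) * x ^ 2)) volume
    simp only [pow_one, neg_sq, neg_mul, integral_neg] at h ⊢
    simp only [gaussMoment, zero_mul]
    linarith
  | more j ih =>
    have h := integral_mul_deriv_eq_deriv_mul_of_integrable
      (u := fun x : ℝ => x ^ (j + 1)) (u' := fun x => ((j : ℝ) + 1) * x ^ j)
      (v := fun x => -Real.exp (-(1 / 2) * x ^ 2))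
      (v' := fun x => x * Real.exp (-(1 / 2) * x ^ 2))
      (fun x _ => by simpa using hasDerivAt_pow (j + 1) x)
      (fun x _ => (((hasDerivAt_pow 2 x).const_mul (-(1 / 2 : ℝ))).exp.neg).congr_deriv
        (by push_cast; ring))
      ((hI (j + 2)).congr (.of_forall fun x => by simp only [Pi.mul_apply]; ring))
      (((hI j).const_mul (-((j : ℝ) + 1))).congr (.of_forall fun x => by
        simp only [Pi.mul_apply]; ring))
      ((hI (j + 1)).neg.congr (.of_forall fun x => by simp only [Pi.mul_apply, Pi.neg_apply]; ring))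
    rw [← integral_neg] at h
    have e1 : (fun x : ℝ => x ^ (j + 2) * Real.exp (-(1 / 2) * x ^ 2)) =
        fun x => x ^ (j + 1) * (x * Real.exp (-(1 / 2) * x ^ 2)) := by funext x; ring
    have e2 : (fun x : ℝ => -(((j : ℝ) + 1) * x ^ j * -Real.exp (-(1 / 2) * x ^ 2))) =
        fun x => ((j : ℝ) + 1) * (x ^ j * Real.exp (-(1 / 2) * x ^ 2)) := by funext x; ring
    rw [e1, h, e2, integral_const_mul, ih, gaussMoment, mul_assoc]

theorem mehta_value :
    ∫ x : Fin n → ℝ, Real.exp (-(∑ i, x i ^ 2) / 2) *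
        |∏ i : Fin n, ∏ j ∈ Ioi i, (x i - x j)| ^ (2 * k) =
      √(2 * Real.pi) ^ n * ∏ j ∈ range n, (((j + 1) * k).factorial : ℝ) / k.factorial := by
  have h := (integral_eval volume (fun x : ℝ => Real.exp (-(1 / 2) * x ^ 2)) gaussMoment _
    gauss_moment (vandPow n k)).2
  simp only [eval_vandPow, ← volume_pi, ← Real.exp_sum, prodMap_gauss_vandPow] at h
  rw [mul_comm (√(2 * Real.pi) ^ n), ← h]
  congr 1
  funext x
  rw [mul_comm, ← mul_sum]
  congr 2
  ring

theorem gauss_law_moment (m : ℕ) :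
    Integrable (fun x : ℝ => x ^ m * 1) (ProbabilityTheory.gaussianReal 0 1) ∧
      ∫ x : ℝ, x ^ m * 1 ∂(ProbabilityTheory.gaussianReal 0 1) = gaussMoment m * 1 := by
  have hne : (√(2 * Real.pi)) ≠ 0 := by positivity
  have e : ∀ x : ℝ, ProbabilityTheory.gaussianPDFReal 0 1 x =
      (√(2 * Real.pi))⁻¹ * Real.exp (-(1 / 2) * x ^ 2) := fun x => by
    rw [ProbabilityTheory.gaussianPDFReal_def]
    simp only [NNReal.coe_one, mul_one, sub_zero]
    congr 2
    ring
  simp only [mul_one]
  constructor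
  · rw [ProbabilityTheory.gaussianReal_of_var_ne_zero _ one_ne_zero,
      integrable_withDensity_iff (ProbabilityTheory.measurable_gaussianPDF _ _)
        (.of_forall fun _ => ProbabilityTheory.gaussianPDF_lt_top)]
    refine ((gauss_moment m).1.const_mul (√(2 * Real.pi))⁻¹).congr (.of_forall fun x => ?_)
    simp only [ProbabilityTheory.toReal_gaussianPDF, e]
    ring
  · rw [ProbabilityTheory.integral_gaussianReal_eq_integral_smul one_ne_zero]
    simp only [smul_eq_mul, e]
    rw [show (fun x : ℝ => (√(2 * Real.pi))⁻¹ * Real.exp (-(1 / 2) * x ^ 2) * x ^ m) =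
      fun x => (√(2 * Real.pi))⁻¹ * (x ^ m * Real.exp (-(1 / 2) * x ^ 2)) by funext x; ring,
      integral_const_mul, (gauss_moment m).2]
    field_simp

theorem gaussian_value :
    ∫ x : Fin n → ℝ, |∏ i : Fin n, ∏ j ∈ Ioi i, (x i - x j)| ^ (2 * k)
        ∂(Measure.pi fun _ => ProbabilityTheory.gaussianReal 0 1) =
      ∏ j ∈ range n, (((j + 1) * k).factorial : ℝ) / k.factorial := by
  have h := (integral_eval (ProbabilityTheory.gaussianReal 0 1) (fun _ => 1) gaussMoment 1
    gauss_law_moment (vandPow n k)).2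
  simpa [eval_vandPow, prodMap_gauss_vandPow] using h

end FA.MehtaIntegral
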