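import Fermat.Agent.SelbergIntegral.Integral
import Mathlib.RingTheory.MvPolynomial.Homogeneous

/-!
# Degree, translation and monomial integrals for the powers of the Vandermonde product
-/

set_option autoImplicit false

noncomputable section

namespace FA.MehtaIntegral

open Finset MvPolynomial MeasureTheory
open FA.SelbergIntegral (prodMap prodMap_monomial prodMap_eq_sum prodMap_smul_weight prodMap_C_mul
  vandPow vandPow_eq pairProd pairSet rise)

variable {n k : ℕ}

/-- The degree of `vandPow n k`. -/
theorem vandPow_isHomogeneous (n k : ℕ) : (vandPow n k).IsHomogeneous (n * (n - 1) * k) := by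
  rw [vandPow]
  refine IsHomogeneous.C_mul ?_ _
  have h : (pairProd n).IsHomogeneous (∑ _p ∈ pairSet n, 1) :=
    IsHomogeneous.prod _ _ _ fun p _ => (isHomogeneous_X ℝ p.1).sub (isHomogeneous_X ℝ p.2)
  rw [sum_const, smul_eq_mul, mul_one, pairSet, offDiag_card, card_univ, Fintype.card_fin] at h
  rw [show n * (n - 1) = n * n - n by rw [Nat.mul_sub, mul_one]]
  exact h.pow k

theorem sum_exponents {m : Fin n →₀ ℕ} (hm : m ∈ (vandPow n k).support) :
    ∑ i, m i = n * (n - 1) * k := by
  rw [← Finsupp.degree_eq_sum]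
  by_contra h
  exact mem_support_iff.1 hm ((vandPow_isHomogeneous n k).coeff_eq_zero h)

/-- Scaling the exponent `m` by `s ^ m`. -/
theorem prodMap_scale (s : ℝ) (w : ℕ → ℝ) :
    prodMap (fun _ m => s ^ m * w m) (vandPow n k) =
      s ^ (n * (n - 1) * k) * prodMap (fun _ => w) (vandPow n k) := by
  rw [prodMap_eq_sum, prodMap_eq_sum, mul_sum]
  refine sum_congr rfl fun m hm => ?_
  rw [prod_mul_distrib, prod_pow_eq_pow_sum, sum_exponents hm]
  ring

theorem tendsto_prodMap {ι : Type*} {l : Filter ι} {w : ι → ℕ → ℝ} {v : ℕ → ℝ}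
    (h : ∀ m, Filter.Tendsto (fun t => w t m) l (nhds (v m))) (p : MvPolynomial (Fin n) ℝ) :
    Filter.Tendsto (fun t => prodMap (fun _ => w t) p) l (nhds (prodMap (fun _ => v) p)) := by
  simp only [prodMap_eq_sum]
  exact tendsto_finsetSum _ fun m _ => (tendsto_finsetProd _ fun i _ => h (m i)).const_mul _

/-- The weights of a translated variable. -/
def shiftWeight (c : ℝ) (w : ℕ → ℝ) (m : ℕ) : ℝ :=
  ∑ l ∈ range (m + 1), m.choose l * c ^ (m - l) * w l

theorem prodMap_shift (c : ℝ) (w : ℕ → ℝ) (p : MvPolynomial (Fin n) ℝ) :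
    prodMap (fun _ => w) (aeval (fun i => X i + C c : Fin n → MvPolynomial (Fin n) ℝ) p) =
      prodMap (fun _ => shiftWeight c w) p := by
  induction p using MvPolynomial.induction_on' with
  | monomial m a =>
    rw [aeval_monomial, Finsupp.prod_fintype _ _ (fun i => pow_zero _), prodMap_monomial,
      algebraMap_eq, prodMap_C_mul]
    simp only [add_pow, shiftWeight]
    rw [prod_univ_sum, prod_univ_sum, map_sum]
    congr 1
    refine sum_congr rfl fun l _ => ?_
    have e : ∏ i, (X i : MvPolynomial (Fin n) ℝ) ^ l i * C c ^ (m i - l i) *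
          ((m i).choose (l i) : MvPolynomial (Fin n) ℝ) =
        monomial (∑ i, Finsupp.single i (l i))
          (∏ i, c ^ (m i - l i) * ((m i).choose (l i) : ℝ)) := by
      rw [← mul_one (∏ i, c ^ (m i - l i) * ((m i).choose (l i) : ℝ)), ← C_mul_monomial,
        monomial_sum_one, map_prod, ← prod_mul_distrib]
      refine prod_congr rfl fun i _ => ?_
      rw [X_pow_eq_monomial, map_mul, map_pow, map_natCast]
      ring
    rw [e, prodMap_monomial, ← prod_mul_distrib]
    refine prod_congr rfl fun i _ => ?_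
    simp only [Finsupp.finsetSum_apply, Finsupp.single_apply, sum_ite_eq', mem_univ, ↓reduceIte]
    ring
  | add p q hp hq => simp only [map_add, hp, hq]

theorem aeval_shift_vandPow (c : ℝ) :
    aeval (fun i => X i + C c : Fin n → MvPolynomial (Fin n) ℝ) (vandPow n k) = vandPow n k := by
  rw [vandPow_eq]
  simp only [map_prod, map_pow, map_sub, aeval_X, add_sub_add_right_eq_sub]

/-- **Translation invariance.** -/
theorem prodMap_shift_vandPow (c : ℝ) (w : ℕ → ℝ) :
    prodMap (fun _ => shiftWeight c w) (vandPow n k) = prodMap (fun _ => w) (vandPow n k) := by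
  rw [← prodMap_shift, aeval_shift_vandPow]

/-- Polynomials against a product of one weight. -/
theorem integral_eval (μ : Measure ℝ) [SigmaFinite μ] (f : ℝ → ℝ) (w : ℕ → ℝ) (Z : ℝ)
    (h : ∀ m : ℕ, Integrable (fun x => x ^ m * f x) μ ∧ ∫ x, x ^ m * f x ∂μ = w m * Z)
    (p : MvPolynomial (Fin n) ℝ) :
    Integrable (fun x : Fin n → ℝ => eval x p * ∏ i, f (x i)) (Measure.pi fun _ => μ) ∧
      ∫ x : Fin n → ℝ, eval x p * ∏ i, f (x i) ∂(Measure.pi fun _ => μ) =
        prodMap (fun _ => w) p * Z ^ n := by
  induction p using MvPolynomial.induction_on' with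
  | monomial m a =>
    have e : (fun x : Fin n → ℝ => eval x (monomial m a) * ∏ i, f (x i)) =
        fun x => a * ∏ i, x i ^ m i * f (x i) := by
      funext x
      rw [eval_monomial, Finsupp.prod_fintype _ _ (fun i => pow_zero _), mul_assoc,
        ← prod_mul_distrib]
    rw [e]
    refine ⟨(Integrable.fintype_prod (f := fun i t => t ^ m i * f t)
      fun i => (h (m i)).1).const_mul a, ?_⟩
    rw [integral_const_mul,
      integral_fintype_prod_eq_prod (μ := fun _ => μ) (f := fun i (t : ℝ) => t ^ m i * f t),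
      prod_congr rfl fun i _ => (h (m i)).2, prodMap_monomial, prod_mul_distrib, prod_const,
      card_univ, Fintype.card_fin, mul_assoc]
  | add p q hp hq =>
    simp only [map_add, add_mul]
    exact ⟨hp.1.add hq.1, by rw [integral_add hp.1 hq.1, hp.2, hq.2]⟩

open Filter Topology in
/-- `b ^ m / (c + b)_m → 1`. -/
theorem tendsto_pow_div_rise (c : ℝ) (m : ℕ) :
    Tendsto (fun b : ℝ => b ^ m / rise (c + b) m) atTop (𝓝 1) := by
  have h : ∀ d : ℝ, Tendsto (fun b : ℝ => b / (d + b)) atTop (𝓝 1) := fun d => by
    have h0 : Tendsto (fun b : ℝ => 1 - d / (d + b)) atTop (𝓝 (1 - 0)) :=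
      tendsto_const_nhds.sub
        (tendsto_const_nhds.div_atTop (tendsto_atTop_add_const_left _ d tendsto_id))
    rw [sub_zero] at h0
    refine h0.congr' ?_
    filter_upwards [eventually_gt_atTop (-d)] with b hb
    have : d + b ≠ 0 := by linarith
    field_simp
    ring
  have e : (fun b : ℝ => b ^ m / rise (c + b) m) =
      fun b => ∏ i ∈ range m, b / (c + i + b) := by
    funext b
    rw [rise, prod_div_distrib, prod_const, card_range]
    congr 1
    exact prod_congr rfl fun i _ => by ring
  rw [e]
  simpa using tendsto_finsetProd (range m) fun i _ => h (c + i)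

end FA.MehtaIntegral
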